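/-
GATE-K / K6c (helper24), Mathlib only: RATIONAL DESCENT for homogeneous linear systems with integer
coefficients.

If a complex vector `c` solves a (possibly infinite) system of linear equations with INTEGER
coefficients and a complex linear functional `L` does not vanish at `c`, then there is an INTEGER
solution at which `L` does not vanish.
-/
import Mathlib

set_option autoImplicit false

namespace Fermat.Agent.GK.New

open Finset

/-- clearing denominators of finitely many rationals -/
theorem exists_int_eq_mul_rat {ι : Type*} [Fintype ι] (q : ι → ℚ) :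
    ∃ (D : ℕ) (z : ι → ℤ), 0 < D ∧ ∀ i, (z i : ℚ) = (D : ℚ) * q i := by
  classical
  refine ⟨∏ i, (q i).den, fun i => (q i).num * ((∏ j ∈ Finset.univ.erase i, (q j).den : ℕ) : ℤ),
    Finset.prod_pos fun i _ => (q i).den_pos, fun i => ?_⟩
  have hprod : (∏ j, (q j).den : ℕ) = (q i).den * ∏ j ∈ Finset.univ.erase i, (q j).den :=
    (Finset.mul_prod_erase Finset.univ (fun j => (q j).den) (Finset.mem_univ i)).symm
  rw [hprod]
  push_cast
  have h1 : (q i) * ((q i).den : ℚ) = ((q i).num : ℚ) := Rat.mul_den_eq_num (q i)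
  rw [← h1]
  ring

/-- **Rational descent.** -/
theorem exists_int_solution {ι : Type*} [Fintype ι] {E : Type*} (m : E → ι → ℤ) (L : ι → ℂ)
    (c : ι → ℂ) (hc : ∀ e, ∑ i, c i * (m e i : ℂ) = 0) (hL : ∑ i, c i * L i ≠ 0) :
    ∃ z : ι → ℤ, (∀ e, ∑ i, z i * m e i = 0) ∧ ∑ i, (z i : ℂ) * L i ≠ 0 := by
  classical
  -- the `ℚ`-span of the `c i`
  set W : Submodule ℚ ℂ := Submodule.span ℚ (Set.range c) with hW
  have hfd : FiniteDimensional ℚ W := FiniteDimensional.span_of_finite ℚ (Set.finite_range c)
  set b := Module.finBasis ℚ W with hb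
  have hcW : ∀ i, c i ∈ W := fun i => Submodule.subset_span ⟨i, rfl⟩
  set q : ι → Fin (Module.finrank ℚ W) → ℚ := fun i k => b.repr ⟨c i, hcW i⟩ k with hq
  have hci : ∀ i, c i = ∑ k, (q i k : ℂ) * (b k : ℂ) := by
    intro i
    have h1 := b.sum_repr ⟨c i, hcW i⟩
    have h2 := congrArg (fun w : W => (w : ℂ)) h1
    simp only [Submodule.coe_sum, Submodule.coe_smul] at h2
    rw [← h2]
    apply Finset.sum_congr rfl
    intro k _
    rw [hq]
    simp [Rat.smul_def]
  have hli : LinearIndependent ℚ (fun k => (b k : ℂ)) :=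
    b.linearIndependent.map' W.subtype (Submodule.ker_subtype W)
  -- the equations, coordinatewise
  have heq : ∀ e k, ∑ i, q i k * (m e i : ℚ) = 0 := by
    intro e
    have h1 : ∑ k, (∑ i, q i k * (m e i : ℚ)) • (b k : ℂ) = 0 := by
      rw [← hc e]
      simp only [Rat.smul_def]
      push_cast
      simp only [Finset.sum_mul]
      rw [Finset.sum_comm]
      apply Finset.sum_congr rfl
      intro i _
      rw [hci i, Finset.sum_mul]
      apply Finset.sum_congr rfl
      intro k _
      ring
    have h2 := Fintype.linearIndependent_iff.mp hli (fun k => ∑ i, q i k * (m e i : ℚ)) h1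
    exact h2
  -- the functional, coordinatewise
  have hLk : ∃ k, ∑ i, (q i k : ℂ) * L i ≠ 0 := by
    by_contra hne
    push Not at hne
    apply hL
    have : ∑ i, c i * L i = ∑ k, (b k : ℂ) * ∑ i, (q i k : ℂ) * L i := by
      simp only [Finset.mul_sum]
      rw [Finset.sum_comm]
      apply Finset.sum_congr rfl
      intro i _
      rw [hci i, Finset.sum_mul]
      apply Finset.sum_congr rfl
      intro k _
      ring
    rw [this]
    apply Finset.sum_eq_zero
    intro k _
    rw [hne k, mul_zero]
  obtain ⟨k, hk⟩ := hLk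
  obtain ⟨D, z, hD, hz⟩ := exists_int_eq_mul_rat (fun i => q i k)
  refine ⟨z, fun e => ?_, ?_⟩
  · have h1 : ((∑ i, z i * m e i : ℤ) : ℚ) = 0 := by
      push_cast
      have : ∑ i, (z i : ℚ) * (m e i : ℚ) = (D : ℚ) * ∑ i, q i k * (m e i : ℚ) := by
        rw [Finset.mul_sum]
        apply Finset.sum_congr rfl
        intro i _
        rw [hz i]; ring
      rw [this, heq e k, mul_zero]
    exact_mod_cast h1
  · have h1 : ∑ i, (z i : ℂ) * L i = (D : ℂ) * ∑ i, (q i k : ℂ) * L i := by
      rw [Finset.mul_sum]
      apply Finset.sum_congr rfl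
      intro i _
      have : (z i : ℂ) = (D : ℂ) * (q i k : ℂ) := by
        have := congrArg (fun x : ℚ => (x : ℂ)) (hz i)
        simpa using this
      rw [this]; ring
    rw [h1]
    exact mul_ne_zero (Nat.cast_ne_zero.mpr hD.ne') hk

end Fermat.Agent.GK.New
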