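/-
GATE-K / K6a (helper24): STRONG MULTIPLICITY ONE, weak form, for weight-2 normalised eigenforms.

Two normalised eigenforms `f` (level `N`), `g` (level `M`) whose prime coefficients agree outside a
FINITE set of primes have the same coefficient at EVERY prime not dividing `N M`.

This is the bridge between the prelude's `CuspForm.IsNewform` / `GoodEigensystemOccursAt` (agreement
at all `ℓ ∤ N`) and eigensystems of the Hecke algebra away from a finite set `S` (agreement only at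
`ℓ ∉ S`), needed for S35 clause 2.

Proof.  For a prime `p ≠ ℓ₀` choose `φ : ℤ̄ → k`, `char k = p`; statement S29 attaches mod-`p`
representations `ρ_f`, `ρ_g` to `f`, `g` and `φ`.  The product `(ρ_f, ρ_g)` has finite level, so by
Frobenius' theorem (FL1, helper22/helper77) its value at a Frobenius lift `σ₀` at `ℓ₀` is a power of
its value at a Frobenius lift `τ` at a prime `ℓ` outside any finite set; at `τ` both characteristic
polynomials are `X² - φ(a_ℓ) X + ℓ`, hence the traces of all powers agree (Lucas sequences), so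
`φ (a_{ℓ₀}(f) - a_{ℓ₀}(g)) = 0`.  An algebraic integer killed by such a `φ` for infinitely many `p`
is zero.
-/
import Fermat.Agent.S29
import Fermat.Prelude.Def_CuspForm_Newforms
import Fermat.Agent.GJ.FrobLiftMain
import Fermat.Agent.GJ.Tate.S31Dens

set_option autoImplicit false

open Polynomial CuspForm ModularFormClass
open Fermat.Agent.Common_helper32

namespace Fermat.Agent.GK.New

/-- A ring homomorphism from `ℤ̄` to a field of any prime characteristic `p`. -/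
theorem exists_ringHom_charP (p : ℕ) (hp : p.Prime) :
    ∃ (k : Type) (_ : Field k) (_ : CharP k p), Nonempty (integralClosure ℤ ℂ →+* k) := by
  classical
  have hmax : (Ideal.span {(p : ℤ)}).IsMaximal :=
    PrincipalIdealRing.isMaximal_of_irreducible (Nat.prime_iff_prime_int.mp hp).irreducible
  have hker : RingHom.ker (algebraMap ℤ (integralClosure ℤ ℂ)) ≤ Ideal.span {(p : ℤ)} := by
    intro x hx
    rw [RingHom.mem_ker] at hx
    have : x = 0 := by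
      have h1 : ((algebraMap ℤ (integralClosure ℤ ℂ) x : integralClosure ℤ ℂ) : ℂ) = 0 := by
        rw [hx]; rfl
      have h2 : ((x : ℤ) : ℂ) = 0 := by simpa using h1
      exact_mod_cast h2
    rw [this]; exact Ideal.zero_mem _
  obtain ⟨Q, hQmax, hQ⟩ := Ideal.exists_ideal_over_maximal_of_isIntegral
    (S := integralClosure ℤ ℂ) (Ideal.span {(p : ℤ)}) hker
  let _ : Field (integralClosure ℤ ℂ ⧸ Q) := Ideal.Quotient.field Q
  refine ⟨integralClosure ℤ ℂ ⧸ Q, inferInstance, ?_, ⟨Ideal.Quotient.mk Q⟩⟩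
  have h0 : ((p : ℕ) : integralClosure ℤ ℂ ⧸ Q) = 0 := by
    have h1 : (p : ℤ) ∈ Q.comap (algebraMap ℤ (integralClosure ℤ ℂ)) := by
      rw [hQ]; exact Ideal.subset_span rfl
    rw [Ideal.mem_comap] at h1
    have h2 : Ideal.Quotient.mk Q (algebraMap ℤ (integralClosure ℤ ℂ) (p : ℤ)) = 0 :=
      Ideal.Quotient.eq_zero_iff_mem.mpr h1
    simpa using h2
  have h3 := CharP.ringChar_of_prime_eq_zero hp h0
  rw [← h3]
  exact ringChar.charP _

/-- An algebraic integer which is killed by a ring homomorphism to a field of characteristic `p`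
for every prime `p ≠ ℓ₀` is zero. -/
theorem eq_zero_of_forall_ringHom_eq_zero (d : integralClosure ℤ ℂ) (ℓ₀ : ℕ)
    (h : ∀ p : ℕ, p.Prime → p ≠ ℓ₀ → ∃ (k : Type) (_ : Field k) (_ : CharP k p)
      (φ : integralClosure ℤ ℂ →+* k), φ d = 0) : d = 0 := by
  classical
  have hint : IsIntegral ℤ (d : ℂ) := d.2
  set m : ℤ[X] := minpoly ℤ (d : ℂ) with hm
  have haev : aeval d m = 0 := by
    apply Subtype.ext
    have h1 : ((aeval d m : integralClosure ℤ ℂ) : ℂ) = aeval (d : ℂ) m :=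
      (aeval_algHom_apply (integralClosure ℤ ℂ).val d m).symm
    rw [h1, hm, minpoly.aeval]
    rfl
  -- every prime `p ≠ ℓ₀` divides the constant coefficient
  have hdvd : ∀ p : ℕ, p.Prime → p ≠ ℓ₀ → (p : ℤ) ∣ m.coeff 0 := by
    intro p hp hpℓ
    obtain ⟨k, _, _, φ, hφ⟩ := h p hp hpℓ
    have h1 : φ (aeval d m) = 0 := by rw [haev, map_zero]
    rw [aeval_def, hom_eval₂, hφ, eval₂_at_zero] at h1
    have h2 : ((m.coeff 0 : ℤ) : k) = 0 := by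
      have : (φ.comp (algebraMap ℤ (integralClosure ℤ ℂ))) (m.coeff 0) = ((m.coeff 0 : ℤ) : k) :=
        eq_intCast _ _
      rw [← this]; exact h1
    exact (CharP.intCast_eq_zero_iff k p _).mp h2
  have hc0 : m.coeff 0 = 0 := by
    by_contra hne
    obtain ⟨p, hple, hp⟩ := Nat.exists_infinite_primes ((m.coeff 0).natAbs + ℓ₀ + 1)
    have hpℓ : p ≠ ℓ₀ := by omega
    have h1 := hdvd p hp hpℓ
    have h2 : p ∣ (m.coeff 0).natAbs := Int.natCast_dvd.mp h1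
    have h3 : p ≤ (m.coeff 0).natAbs :=
      Nat.le_of_dvd (Int.natAbs_pos.mpr hne) h2
    omega
  -- pass to `ℚ`
  have hq : minpoly ℚ (d : ℂ) = m.map (algebraMap ℤ ℚ) :=
    minpoly.isIntegrallyClosed_eq_field_fractions' ℚ hint
  have hq0 : (minpoly ℚ (d : ℂ)).coeff 0 = 0 := by
    rw [hq, coeff_map, hc0, map_zero]
  have hd0 : (d : ℂ) = 0 :=
    (minpoly.coeff_zero_eq_zero (hint.tower_top (A := ℚ))).mp hq0
  exact Subtype.ext hd0

/-- In a field of characteristic `p`, a prime `ℓ ≠ p` is nonzero. -/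
theorem natCast_prime_ne_zero {k : Type} [Field k] {p : ℕ} [CharP k p] {ℓ : ℕ} (hp : p.Prime)
    (hℓ : ℓ.Prime) (hne : ℓ ≠ p) : (ℓ : k) ≠ 0 := by
  intro h0
  have h1 : p ∣ ℓ := (CharP.cast_eq_zero_iff k p ℓ).mp h0
  rcases (Nat.dvd_prime hℓ).mp h1 with h2 | h2
  · exact hp.one_lt.ne' h2
  · exact hne h2.symm

/-- Two residual representations attached (with respect to the same `φ`) to eigenforms whose prime
coefficients agree outside a finite set have the same trace at every Frobenius lift at a good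
prime: `φ` kills the difference of the two coefficients. -/
theorem map_sub_eq_zero_of_isAttachedTo {N M : ℕ}
    {f : CuspForm (CongruenceSubgroup.Gamma0 N) 2} {g : CuspForm (CongruenceSubgroup.Gamma0 M) 2}
    {p : ℕ} (hp : p.Prime) {k : Type} [Field k] [CharP k p] (φ : integralClosure ℤ ℂ →+* k)
    (ρf ρg : ResidualGaloisRep k) (hρf : ρf.IsAttachedTo f φ) (hρg : ρg.IsAttachedTo g φ)
    (B : Finset ℕ) (hB : ∀ ℓ : ℕ, ℓ.Prime → ℓ ∉ B → qCoeff f ℓ = qCoeff g ℓ)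
    (hNM : N * M ≠ 0)
    {ℓ₀ : ℕ} (hℓ₀ : ℓ₀.Prime) (hℓ₀N : ¬ ℓ₀ ∣ N) (hℓ₀M : ¬ ℓ₀ ∣ M) (hℓ₀p : ℓ₀ ≠ p)
    (b₁ b₂ : integralClosure ℤ ℂ) (hb₁ : (b₁ : ℂ) = qCoeff f ℓ₀) (hb₂ : (b₂ : ℂ) = qCoeff g ℓ₀) :
    φ (b₁ - b₂) = 0 := by
  classical
  obtain ⟨A₀, σ₀, hA₀, hσ₀⟩ := exists_isFrobeniusAt ℓ₀ hℓ₀
  -- the product representation
  have hfin : GaloisFactorsThroughFiniteLevel (ρf.ρ.prod ρg.ρ) :=
    Fermat.Agent.GJ.Tate.factorsThroughFiniteLevel_prod ρf.factorsThroughFiniteLevel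
      ρg.factorsThroughFiniteLevel
  set B' : Finset ℕ := B ∪ (N * M).divisors ∪ {p} with hB'
  obtain ⟨ℓ, A, τ, j, hℓ, hℓB', hA, hτ, hpow⟩ :=
    Fermat.Agent.GJ.FrobLift.exists_isFrobeniusAt_pow' (ρf.ρ.prod ρg.ρ) hfin B' σ₀
  have hℓB : ℓ ∉ B := fun h => hℓB' (by rw [hB']; simp [h])
  have hℓNM : ¬ ℓ ∣ N * M := fun h => hℓB' (by
    rw [hB']
    have : ℓ ∈ (N * M).divisors := Nat.mem_divisors.mpr ⟨h, hNM⟩
    simp [this])
  have hℓp : ℓ ≠ p := fun h => hℓB' (by rw [hB']; simp [h])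
  have hℓN : ¬ ℓ ∣ N := fun h => hℓNM (Dvd.dvd.mul_right h M)
  have hℓM : ¬ ℓ ∣ M := fun h => hℓNM (Dvd.dvd.mul_left h N)
  have hℓk : (ℓ : k) ≠ 0 := natCast_prime_ne_zero hp hℓ hℓp
  have hℓ₀k : (ℓ₀ : k) ≠ 0 := natCast_prime_ne_zero hp hℓ₀ hℓ₀p
  -- the two components of `hpow`
  have hpf : ρf.ρ σ₀ = ρf.ρ τ ^ j := by
    have := congrArg Prod.fst hpow
    simpa [MonoidHom.prod_apply] using this
  have hpg : ρg.ρ σ₀ = ρg.ρ τ ^ j := by
    have := congrArg Prod.snd hpow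
    simpa [MonoidHom.prod_apply] using this
  -- characteristic polynomials at `τ`
  obtain ⟨a₁, ha₁, hc₁⟩ := hρf ℓ hℓ hℓN hℓk A hA τ hτ
  obtain ⟨a₂, ha₂, hc₂⟩ := hρg ℓ hℓ hℓM hℓk A hA τ hτ
  have ha : a₁ = a₂ := Subtype.ext (by rw [ha₁, ha₂, hB ℓ hℓ hℓB])
  rw [← ha] at hc₂
  -- characteristic polynomials at `σ₀`
  obtain ⟨c₁, hc₁', hd₁⟩ := hρf ℓ₀ hℓ₀ hℓ₀N hℓ₀k A₀ hA₀ σ₀ hσ₀
  obtain ⟨c₂, hc₂', hd₂⟩ := hρg ℓ₀ hℓ₀ hℓ₀M hℓ₀k A₀ hA₀ σ₀ hσ₀
  have hcb₁ : c₁ = b₁ := Subtype.ext (by rw [hc₁', hb₁])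
  have hcb₂ : c₂ = b₂ := Subtype.ext (by rw [hc₂', hb₂])
  rw [hcb₁] at hd₁
  rw [hcb₂] at hd₂
  -- traces
  have t₁ : LinearMap.trace k ρf.V (ρf.ρ σ₀) = φ b₁ := by
    have := Fermat.Agent.GJ.Tate.trace_pow_eq_lucasV ρf.finrank_eq (ρf.ρ σ₀) (φ b₁) (ℓ₀ : k) hd₁ 1
    rwa [pow_one, Fermat.Agent.GJ.Tate.lucasV_one] at this
  have t₂ : LinearMap.trace k ρg.V (ρg.ρ σ₀) = φ b₂ := by
    have := Fermat.Agent.GJ.Tate.trace_pow_eq_lucasV ρg.finrank_eq (ρg.ρ σ₀) (φ b₂) (ℓ₀ : k) hd₂ 1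
    rwa [pow_one, Fermat.Agent.GJ.Tate.lucasV_one] at this
  have s₁ : LinearMap.trace k ρf.V (ρf.ρ σ₀) = Fermat.Agent.GJ.Tate.lucasV (φ a₁) (ℓ : k) j := by
    rw [hpf]
    exact Fermat.Agent.GJ.Tate.trace_pow_eq_lucasV ρf.finrank_eq (ρf.ρ τ) (φ a₁) (ℓ : k) hc₁ j
  have s₂ : LinearMap.trace k ρg.V (ρg.ρ σ₀) = Fermat.Agent.GJ.Tate.lucasV (φ a₁) (ℓ : k) j := by
    rw [hpg]
    exact Fermat.Agent.GJ.Tate.trace_pow_eq_lucasV ρg.finrank_eq (ρg.ρ τ) (φ a₁) (ℓ : k) hc₂ j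
  rw [map_sub, ← t₁, ← t₂, s₁, s₂, sub_self]

/-- **Strong multiplicity one (weak form).**  Two weight-2 normalised eigenforms whose prime
coefficients agree outside a finite set of primes have the same coefficient at every prime not
dividing the two levels. -/
theorem qCoeff_eq_of_forall_not_mem {N M : ℕ}
    {f : CuspForm (CongruenceSubgroup.Gamma0 N) 2} {g : CuspForm (CongruenceSubgroup.Gamma0 M) 2}
    (hf : f.IsNormalizedEigenform) (hg : g.IsNormalizedEigenform) (hNM : N * M ≠ 0)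
    (B : Finset ℕ) (hB : ∀ ℓ : ℕ, ℓ.Prime → ℓ ∉ B → qCoeff f ℓ = qCoeff g ℓ)
    {ℓ₀ : ℕ} (hℓ₀ : ℓ₀.Prime) (hℓ₀N : ¬ ℓ₀ ∣ N) (hℓ₀M : ¬ ℓ₀ ∣ M) :
    qCoeff f ℓ₀ = qCoeff g ℓ₀ := by
  classical
  -- the two coefficients are algebraic integers: use any prime `p₀ ≠ ℓ₀`
  obtain ⟨p₀, hp₀le, hp₀⟩ := Nat.exists_infinite_primes (ℓ₀ + 1)
  have hp₀ℓ : ℓ₀ ≠ p₀ := by omega
  obtain ⟨k₀, _, _, ⟨φ₀⟩⟩ := exists_ringHom_charP p₀ hp₀
  obtain ⟨ρf₀, hρf₀, -⟩ := Fermat.Agent.S29.result hf hp₀ φ₀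
  obtain ⟨ρg₀, hρg₀, -⟩ := Fermat.Agent.S29.result hg hp₀ φ₀
  obtain ⟨A₀, σ₀, hA₀, hσ₀⟩ := exists_isFrobeniusAt ℓ₀ hℓ₀
  have hℓ₀k₀ : (ℓ₀ : k₀) ≠ 0 := natCast_prime_ne_zero hp₀ hℓ₀ hp₀ℓ
  obtain ⟨b₁, hb₁, -⟩ := hρf₀ ℓ₀ hℓ₀ hℓ₀N hℓ₀k₀ A₀ hA₀ σ₀ hσ₀
  obtain ⟨b₂, hb₂, -⟩ := hρg₀ ℓ₀ hℓ₀ hℓ₀M hℓ₀k₀ A₀ hA₀ σ₀ hσ₀
  have hzero : b₁ - b₂ = 0 := by
    apply eq_zero_of_forall_ringHom_eq_zero (b₁ - b₂) ℓ₀
    intro p hp hpℓ
    obtain ⟨k, _, _, ⟨φ⟩⟩ := exists_ringHom_charP p hp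
    obtain ⟨ρf, hρf, -⟩ := Fermat.Agent.S29.result hf hp φ
    obtain ⟨ρg, hρg, -⟩ := Fermat.Agent.S29.result hg hp φ
    exact ⟨k, inferInstance, inferInstance, φ,
      map_sub_eq_zero_of_isAttachedTo hp φ ρf ρg hρf hρg B hB hNM hℓ₀ hℓ₀N hℓ₀M
        (fun h => hpℓ h.symm) b₁ b₂ hb₁ hb₂⟩
  rw [← hb₁, ← hb₂, sub_eq_zero.mp hzero]

/-- Consequence in the prelude's vocabulary: if a normalised eigenform `g` of level `M` agrees with
`f` (level `N`, `M ∣ N`) at the primes outside a finite set, then the good eigensystem of `f`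
occurs at level `M`. -/
theorem goodEigensystemOccursAt_of_forall_not_mem {N M : ℕ} (hN : N ≠ 0) (hMN : M ∣ N)
    {f : CuspForm (CongruenceSubgroup.Gamma0 N) 2} {g : CuspForm (CongruenceSubgroup.Gamma0 M) 2}
    (hf : f.IsNormalizedEigenform) (hg : g.IsNormalizedEigenform)
    (B : Finset ℕ) (hB : ∀ ℓ : ℕ, ℓ.Prime → ℓ ∉ B → qCoeff g ℓ = qCoeff f ℓ) :
    CuspForm.GoodEigensystemOccursAt f M := by
  have hM : M ≠ 0 := fun h => hN (by rw [h] at hMN; exact zero_dvd_iff.mp hMN)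
  refine ⟨g, hg, fun ℓ hℓ hℓN => ?_⟩
  exact qCoeff_eq_of_forall_not_mem hg hf (mul_ne_zero hM hN) B hB hℓ
    (fun h => hℓN (h.trans hMN)) hℓN

/-- A newform does not agree outside a finite set with a normalised eigenform of a proper divisor
level. -/
theorem IsNewform.not_forall_not_mem {N M : ℕ} (hN : N ≠ 0) (hMN : M ∣ N) (hne : M ≠ N)
    {f : CuspForm (CongruenceSubgroup.Gamma0 N) 2} (hf : f.IsNewform)
    {g : CuspForm (CongruenceSubgroup.Gamma0 M) 2} (hg : g.IsNormalizedEigenform)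
    (B : Finset ℕ) : ¬ ∀ ℓ : ℕ, ℓ.Prime → ℓ ∉ B → qCoeff g ℓ = qCoeff f ℓ := fun hB =>
  hf.2 M hMN hne (goodEigensystemOccursAt_of_forall_not_mem hN hMN hf.1 hg B hB)

end Fermat.Agent.GK.New
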