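/-
GATE-K / K6c (helper24): the OLD-KILLER.

For a newform `g` of level `M`, a proper divisor `N' ∣ M` and a finite set `S` of primes containing
the primes dividing `M`, there is an integer polynomial `P` in the Hecke operators `T_ℓ`, `ℓ ∉ S`,
such that `P (T_ℓ) = 0` in `heckeAlgebra N' 2 S` (the polynomial kills level `N'`) while
`P (a_ℓ (g)) ≠ 0`.  Hence `t := P (T_ℓ) ∈ heckeAlgebra M 2 S` satisfies `χ t ≠ 0` for every ring
homomorphism `χ` with `χ (T_ℓ) = a_ℓ (g)`, and `t` acts as zero on everything on which the Hecke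
algebra of level `M` acts through level `N'`.

Proof: (a) no nonzero form of level `N'` has the eigenvalues `a_ℓ (g)` at all `ℓ ∉ S`
(strong multiplicity one `IsNewform.not_forall_not_mem` + existence of normalised eigenforms);
(b) hence `1` lies in the ideal generated by the `X_ℓ - a_ℓ` and the relations of level `N'` in the
complex polynomial ring (a maximal ideal containing both gives a common eigenvector);
(c) rational descent: "`P (T) = 0` at level `N'`" is a system of linear equations with integer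
coefficients (integral structure S23 + Hecke stability of the integral lattice).
-/
import Fermat.Agent.GK.New.StrongMultOne
import Fermat.Agent.GK.New.RatDescent
import Fermat.Agent.S23
import Fermat.Agent.S23.FinDim
import Fermat.Agent.S49.CommAlg
import Fermat.Agent.S49.Normalize
import Fermat.Agent.S49.Finite
import Fermat.Agent.S49_helper65.AbstractDS
import Fermat.Prelude.Thm_CuspForm_mem_intLattice_of_mem_heckeAlgebra

set_option autoImplicit false

open CuspForm ModularFormClass CongruenceSubgroup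

namespace Fermat.Agent.GK.New

/-- The index set of the Hecke operators away from `S`: primes outside `S`. -/
abbrev PrimeIdx (S : Finset ℕ) : Type := {ℓ : ℕ // ℓ.Prime ∧ ℓ ∉ S}

theorem PrimeIdx.not_dvd {S : Finset ℕ} {N' : ℕ} (hS : ∀ q : ℕ, q.Prime → q ∣ N' → q ∈ S)
    (i : PrimeIdx S) : ¬ i.1 ∣ N' := fun h => i.2.2 (hS i.1 i.2.1 h)

section Level

variable {N' : ℕ} [NeZero N'] {S : Finset ℕ} (hS : ∀ q : ℕ, q.Prime → q ∣ N' → q ∈ S)

/-- The Hecke operators `T_ℓ`, `ℓ ∉ S`, of level `N'` as endomorphisms. -/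
noncomputable def Tfam (i : PrimeIdx S) : Module.End ℂ (CuspForm (Gamma0 N') 2) :=
  heckeTLin 2 i.2.1 (PrimeIdx.not_dvd hS i)

/-- ... as elements of the Hecke algebra. -/
noncomputable def TfamH (i : PrimeIdx S) : heckeAlgebra N' 2 (↑S : Set ℕ) :=
  heckeAlgebra.T i.2.1 (PrimeIdx.not_dvd hS i) (by exact_mod_cast i.2.2)

theorem coe_TfamH (i : PrimeIdx S) :
    ((TfamH hS i : heckeAlgebra N' 2 (↑S : Set ℕ)) :
      Module.End ℂ (CuspForm (Gamma0 N') 2)) = Tfam hS i := rfl

omit [NeZero N'] in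
theorem Tfam_commute (i j : PrimeIdx S) : Commute (Tfam hS i) (Tfam hS j) :=
  heckeTLin_comm 2 i.2.1 (PrimeIdx.not_dvd hS i) j.2.1 (PrimeIdx.not_dvd hS j)

/-- The commutative `ℂ`-algebra generated by the `T_ℓ`, `ℓ ∉ S`. -/
noncomputable def TAlg : Subalgebra ℂ (Module.End ℂ (CuspForm (Gamma0 N') 2)) :=
  Algebra.adjoin ℂ (Set.range (Tfam hS))

instance TAlg.instIsMulCommutative : IsMulCommutative (TAlg hS) :=
  Algebra.isMulCommutative_adjoin ℂ (by
    rintro _ ⟨i, rfl⟩ _ ⟨j, rfl⟩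
    exact (Tfam_commute hS i j).eq)

open scoped IsMulCommutative in
noncomputable instance TAlg.instCommRing : CommRing (TAlg hS) := inferInstance

/-- The `T_ℓ` as elements of `TAlg`. -/
noncomputable def TfamA (i : PrimeIdx S) : TAlg hS :=
  ⟨Tfam hS i, Algebra.subset_adjoin ⟨i, rfl⟩⟩

omit [NeZero N'] in
theorem coe_TfamA (i : PrimeIdx S) :
    ((TfamA hS i : TAlg hS) : Module.End ℂ (CuspForm (Gamma0 N') 2)) = Tfam hS i := rfl

end Level

/-- **(a)** No nonzero form of a proper divisor level `N'` has the eigenvalues of the newform `g` at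
all primes outside `S`. -/
theorem eq_zero_of_forall_Tfam {M N' : ℕ} [NeZero M] [NeZero N'] (hN'M : N' ∣ M) (hne : N' ≠ M)
    {g : CuspForm (Gamma0 M) 2} (hg : g.IsNewform) (S : Finset ℕ)
    (hS : ∀ q : ℕ, q.Prime → q ∣ N' → q ∈ S) (v : CuspForm (Gamma0 N') 2)
    (hv : ∀ i : PrimeIdx S, Tfam hS i v = qCoeff g i.1 • v) : v = 0 := by
  classical
  by_contra hv0
  have hfd : FiniteDimensional ℂ (CuspForm (Gamma0 N') 2) :=
    Fermat.Agent.S23.finiteDimensional_cuspForm N' 2
  -- the joint eigenspace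
  set E : Submodule ℂ (CuspForm (Gamma0 N') 2) :=
    ⨅ i : PrimeIdx S, LinearMap.ker (Tfam hS i - qCoeff g i.1 • (1 : Module.End ℂ _)) with hE
  have hmemE : ∀ w, w ∈ E ↔ ∀ i : PrimeIdx S, Tfam hS i w = qCoeff g i.1 • w := by
    intro w
    rw [hE, Submodule.mem_iInf]
    refine forall_congr' fun i => ?_
    rw [LinearMap.mem_ker, LinearMap.sub_apply, LinearMap.smul_apply, Module.End.one_apply,
      sub_eq_zero]
  have hvE : v ∈ E := (hmemE v).mpr hv
  have hEne : E ≠ ⊥ := fun h => hv0 (by rw [h] at hvE; exact (Submodule.mem_bot ℂ).mp hvE)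
  -- the commuting family of all Hecke operators of level `N'`
  set 𝒮 : Set (Module.End ℂ (CuspForm (Gamma0 N') 2)) := heckeGenerators N' 2 (∅ : Set ℕ) with h𝒮
  have hcomm : ∀ a ∈ 𝒮, ∀ b ∈ 𝒮, Commute a b := fun a ha b hb =>
    commute_of_mem_heckeGenerators ha hb
  have hTmem : ∀ i : PrimeIdx S, Tfam hS i ∈ 𝒮 := fun i =>
    heckeTLin_mem_heckeGenerators i.2.1 (PrimeIdx.not_dvd hS i) (Set.notMem_empty _)
  have hstab : ∀ a ∈ 𝒮, ∀ w ∈ E, a w ∈ E := by
    intro a ha w hw
    rw [hmemE] at hw ⊢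
    intro i
    have hc : Commute (Tfam hS i) a := hcomm _ (hTmem i) _ ha
    have h1 : Tfam hS i (a w) = a (Tfam hS i w) := by
      have := congrArg (fun f : Module.End ℂ (CuspForm (Gamma0 N') 2) => f w) hc.eq
      simpa using this
    rw [h1, hw i, map_smul]
  obtain ⟨v', hv'E, hv'0, hv'⟩ := Fermat.Agent.S49.exists_common_eigenvector 𝒮 hcomm
    (Module.finrank ℂ E) E rfl hEne hstab
  obtain ⟨g', hg', hg'c⟩ := Fermat.Agent.S49.exists_normalized_eigenform hv'0
    (fun ℓ hℓ hℓN => hv' _ (heckeTLin_mem_heckeGenerators hℓ hℓN (Set.notMem_empty _)))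
    (fun q hq hqN => hv' _ (heckeULin_mem_heckeGenerators hq hqN (Set.notMem_empty _)))
  refine IsNewform.not_forall_not_mem (NeZero.ne M) hN'M hne hg hg' S ?_
  intro ℓ hℓ hℓS
  have h1 := (hmemE v').mp hv'E ⟨ℓ, hℓ, hℓS⟩
  exact hg'c ℓ hℓ (PrimeIdx.not_dvd hS ⟨ℓ, hℓ, hℓS⟩) _ h1

/-- **(b)** A complex polynomial in the `T_ℓ` (`ℓ ∉ S`) of level `N'` which vanishes on
`S₂(Γ₀(N'))` and takes the value `1` at the eigenvalues of `g`. -/
theorem exists_complex_killer {M N' : ℕ} [NeZero M] [NeZero N'] (hN'M : N' ∣ M) (hne : N' ≠ M)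
    {g : CuspForm (Gamma0 M) 2} (hg : g.IsNewform) (S : Finset ℕ)
    (hS : ∀ q : ℕ, q.Prime → q ∣ N' → q ∈ S) :
    ∃ P : MvPolynomial (PrimeIdx S) ℂ, MvPolynomial.aeval (TfamA hS) P = 0 ∧
      MvPolynomial.eval (fun i : PrimeIdx S => qCoeff g i.1) P = 1 := by
  classical
  have hfd : FiniteDimensional ℂ (CuspForm (Gamma0 N') 2) :=
    Fermat.Agent.S23.finiteDimensional_cuspForm N' 2
  set a : PrimeIdx S → ℂ := fun i => qCoeff g i.1 with ha
  set f : MvPolynomial (PrimeIdx S) ℂ →ₐ[ℂ] TAlg hS := MvPolynomial.aeval (TfamA hS) with hf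
  set J : Ideal (MvPolynomial (PrimeIdx S) ℂ) := RingHom.ker f.toRingHom with hJ
  set G : Ideal (MvPolynomial (PrimeIdx S) ℂ) :=
    Ideal.span (Set.range fun i : PrimeIdx S => MvPolynomial.X i - MvPolynomial.C (a i)) with hG
  have htop : G ⊔ J = ⊤ := by
    by_contra hnt
    obtain ⟨𝔪, h𝔪, hle⟩ := Ideal.exists_le_maximal (G ⊔ J) hnt
    have hG𝔪 : G ≤ 𝔪 := le_sup_left.trans hle
    have hJ𝔪 : J ≤ 𝔪 := le_sup_right.trans hle
    -- pass to the quotient by `J`, on which the action is faithful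
    have hsurj : Function.Surjective (Ideal.Quotient.mk J) := Ideal.Quotient.mk_surjective
    have hker : RingHom.ker (Ideal.Quotient.mk J) ≤ 𝔪 := by rw [Ideal.mk_ker]; exact hJ𝔪
    have hprime : (𝔪.map (Ideal.Quotient.mk J)).IsPrime :=
      Ideal.map_isPrime_of_surjective hsurj hker
    set φ : (MvPolynomial (PrimeIdx S) ℂ ⧸ J) →+* Module.End ℂ (CuspForm (Gamma0 N') 2) :=
      ((TAlg hS).val.toRingHom).comp (RingHom.kerLift f.toRingHom) with hφ
    have hφinj : Function.Injective φ := by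
      rw [hφ, RingHom.coe_comp]
      exact (Subtype.val_injective).comp (RingHom.kerLift_injective f.toRingHom)
    obtain ⟨v, θ, hv0, hθ, hkerθ⟩ := Fermat.Agent.S49_helper65.exists_eigenvector_ker_le
      φ hφinj (𝔪.map (Ideal.Quotient.mk J))
    set θ' : MvPolynomial (PrimeIdx S) ℂ →+* ℂ := θ.comp (Ideal.Quotient.mk J) with hθ'
    have hfv : ∀ x, ((f x : TAlg hS) : Module.End ℂ (CuspForm (Gamma0 N') 2)) v = θ' x • v :=
      fun x => hθ (Ideal.Quotient.mk J x)
    have hkerθ' : ∀ x, θ' x = 0 → x ∈ 𝔪 := by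
      intro x hx
      have h1 : Ideal.Quotient.mk J x ∈ 𝔪.map (Ideal.Quotient.mk J) := hkerθ hx
      have h2 : x ∈ (𝔪.map (Ideal.Quotient.mk J)).comap (Ideal.Quotient.mk J) := h1
      rw [Ideal.comap_map_of_surjective _ hsurj, ← RingHom.ker_eq_comap_bot, Ideal.mk_ker,
        sup_eq_left.mpr hJ𝔪] at h2
      exact h2
    have hsm : ∀ c c' : ℂ, c • v = c' • v → c = c' := by
      intro c c' h
      have : (c - c') • v = 0 := by rw [sub_smul, h, sub_self]
      rcases smul_eq_zero.mp this with h' | h'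
      · exact sub_eq_zero.mp h'
      · exact absurd h' hv0
    have hθC : ∀ c : ℂ, θ' (MvPolynomial.C c) = c := by
      intro c
      apply hsm
      rw [← hfv, hf, MvPolynomial.aeval_C, Algebra.algebraMap_eq_smul_one]
      rfl
    have hθX : ∀ i, θ' (MvPolynomial.X i) = a i := by
      intro i
      by_contra hne'
      have h1 : MvPolynomial.X i - MvPolynomial.C (θ' (MvPolynomial.X i)) ∈ 𝔪 := by
        apply hkerθ'
        rw [map_sub, hθC, sub_self]
      have h2 : MvPolynomial.X i - MvPolynomial.C (a i) ∈ 𝔪 :=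
        hG𝔪 (Ideal.subset_span ⟨i, rfl⟩)
      have h3 : (MvPolynomial.C (θ' (MvPolynomial.X i) - a i) : MvPolynomial (PrimeIdx S) ℂ)
          ∈ 𝔪 := by
        have := 𝔪.sub_mem h2 h1
        rw [MvPolynomial.C_sub]
        convert this using 1
        ring
      have hunit : IsUnit (MvPolynomial.C (θ' (MvPolynomial.X i) - a i) :
          MvPolynomial (PrimeIdx S) ℂ) :=
        (IsUnit.mk0 _ (sub_ne_zero.mpr hne')).map MvPolynomial.C
      exact h𝔪.ne_top (Ideal.eq_top_of_isUnit_mem _ h3 hunit)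
    apply hv0
    apply eq_zero_of_forall_Tfam hN'M hne hg S hS v
    intro i
    have := hfv (MvPolynomial.X i)
    rwa [hf, MvPolynomial.aeval_X, hθX, coe_TfamA] at this
  have h1 : (1 : MvPolynomial (PrimeIdx S) ℂ) ∈ G ⊔ J := by rw [htop]; trivial
  obtain ⟨u, hu, w, hw, huw⟩ := Submodule.mem_sup.mp h1
  refine ⟨w, hw, ?_⟩
  have hGker : G ≤ RingHom.ker (MvPolynomial.eval a) := by
    rw [hG, Ideal.span_le]
    rintro _ ⟨i, rfl⟩
    rw [SetLike.mem_coe, RingHom.mem_ker, map_sub, MvPolynomial.eval_X, MvPolynomial.eval_C,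
      sub_self]
  have hu0 : MvPolynomial.eval a u = 0 := hGker hu
  have := congrArg (MvPolynomial.eval a) huw
  rw [map_add, hu0, zero_add, map_one] at this
  exact this

section Final

variable {N' : ℕ} [NeZero N'] {S : Finset ℕ} (hS : ∀ q : ℕ, q.Prime → q ∣ N' → q ∈ S)

/-- The `n`-th `q`-coefficient as a linear functional. -/
noncomputable def qCoeffLin (n : ℕ) : CuspForm (Gamma0 N') 2 →ₗ[ℂ] ℂ where
  toFun f := qCoeff f n
  map_add' f g := Fermat.Agent.S49.qCoeff_add f g n
  map_smul' c f := by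
    rw [Fermat.Agent.S49.qCoeff_smul, RingHom.id_apply, smul_eq_mul]

omit [NeZero N'] in
theorem qCoeffLin_apply (n : ℕ) (f : CuspForm (Gamma0 N') 2) : qCoeffLin n f = qCoeff f n := rfl

/-- The integral and the complex evaluation of an integer polynomial in the `T_ℓ` agree as
endomorphisms. -/
theorem coe_aeval_TfamH (p : MvPolynomial (PrimeIdx S) ℤ) :
    ((MvPolynomial.aeval (TfamH hS) p : heckeAlgebra N' 2 (↑S : Set ℕ)) :
        Module.End ℂ (CuspForm (Gamma0 N') 2)) =
      ((MvPolynomial.aeval (TfamA hS) (MvPolynomial.map (Int.castRingHom ℂ) p) : TAlg hS) :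
        Module.End ℂ (CuspForm (Gamma0 N') 2)) := by
  induction p using MvPolynomial.induction_on with
  | C z =>
    rw [MvPolynomial.aeval_C, MvPolynomial.map_C, MvPolynomial.aeval_C, Subalgebra.coe_algebraMap,
      Subalgebra.coe_algebraMap, eq_intCast, Algebra.algebraMap_eq_smul_one]
    simp only [eq_intCast]
    rw [Int.cast_smul_eq_zsmul, zsmul_one]
  | add p q hp hq =>
    rw [map_add, map_add, map_add, Subalgebra.coe_add, Subalgebra.coe_add, hp, hq]
  | mul_X p i hp =>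
    rw [map_mul, map_mul, map_mul, MvPolynomial.aeval_X, MvPolynomial.map_X, MvPolynomial.aeval_X,
      Subalgebra.coe_mul, Subalgebra.coe_mul, hp, coe_TfamH, coe_TfamA]

end Final

/-- **The old-killer.**  For a newform `g` of level `M`, a proper divisor `N'` of `M` and a finite
set `S` containing the primes dividing `N'`, there is an integer polynomial `P` in variables indexed
by the primes outside `S` with `P (T_ℓ) = 0` in the Hecke algebra of level `N'` and
`P (a_ℓ (g)) ≠ 0`. -/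
theorem exists_oldKiller {M N' : ℕ} [NeZero M] [NeZero N'] (hN'M : N' ∣ M) (hne : N' ≠ M)
    {g : CuspForm (Gamma0 M) 2} (hg : g.IsNewform) (S : Finset ℕ)
    (hS : ∀ q : ℕ, q.Prime → q ∣ N' → q ∈ S) :
    ∃ P : MvPolynomial (PrimeIdx S) ℤ,
      MvPolynomial.aeval (TfamH hS) P = 0 ∧
      MvPolynomial.aeval (fun i : PrimeIdx S => qCoeff g i.1) P ≠ 0 := by
  classical
  obtain ⟨P, hP0, hP1⟩ := exists_complex_killer hN'M hne hg S hS
  set a : PrimeIdx S → ℂ := fun i => qCoeff g i.1 with ha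
  set s := P.support with hs
  -- the monomials in the Hecke algebra
  set MH : (PrimeIdx S →₀ ℕ) → heckeAlgebra N' 2 (↑S : Set ℕ) :=
    fun μ => MvPolynomial.aeval (TfamH hS) (MvPolynomial.monomial μ (1 : ℤ)) with hMH
  have hMA : ∀ (μ : PrimeIdx S →₀ ℕ) (c : ℂ),
      ((MvPolynomial.aeval (TfamA hS) (MvPolynomial.monomial μ c) : TAlg hS) :
        Module.End ℂ (CuspForm (Gamma0 N') 2)) =
      c • ((MH μ : heckeAlgebra N' 2 (↑S : Set ℕ)) : Module.End ℂ (CuspForm (Gamma0 N') 2)) := by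
    intro μ c
    rw [hMH, coe_aeval_TfamH, MvPolynomial.map_monomial, map_one]
    have : (MvPolynomial.monomial μ c : MvPolynomial (PrimeIdx S) ℂ) =
        c • MvPolynomial.monomial μ (1 : ℂ) := by
      rw [MvPolynomial.smul_monomial, smul_eq_mul, mul_one]
    rw [this, map_smul, Subalgebra.coe_smul]
  -- integrality of the coefficients
  have hint : ∀ (μ : PrimeIdx S →₀ ℕ) (b : ↥(intLattice N' 2)) (n : ℕ), ∃ m : ℤ,
      qCoeff (((MH μ : heckeAlgebra N' 2 (↑S : Set ℕ)) :
        Module.End ℂ (CuspForm (Gamma0 N') 2)) b.1) n = (m : ℂ) := fun μ b n =>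
    (Fermat.Agent.S49.mem_intLattice_iff _).1
      (mem_intLattice_of_mem_heckeAlgebra (by norm_num) (MH μ).2 b.2) n
  choose m hm using hint
  -- the relation, in sum form
  have hPsum : P = ∑ μ ∈ s, MvPolynomial.monomial μ (P.coeff μ) :=
    (MvPolynomial.support_sum_monomial_coeff P).symm
  have hrel : ∑ μ ∈ s, P.coeff μ •
      ((MH μ : heckeAlgebra N' 2 (↑S : Set ℕ)) : Module.End ℂ (CuspForm (Gamma0 N') 2)) = 0 := by
    have h1 : ((MvPolynomial.aeval (TfamA hS) P : TAlg hS) :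
        Module.End ℂ (CuspForm (Gamma0 N') 2)) = 0 := by rw [hP0]; rfl
    rw [hPsum, map_sum, AddSubmonoidClass.coe_finsetSum] at h1
    rw [← h1]
    exact Finset.sum_congr rfl fun μ _ => (hMA μ _).symm
  have hval : ∑ μ ∈ s, P.coeff μ * MvPolynomial.eval a (MvPolynomial.monomial μ (1 : ℂ)) = 1 := by
    have h1 : MvPolynomial.eval a P =
        ∑ μ ∈ s, P.coeff μ * MvPolynomial.eval a (MvPolynomial.monomial μ (1 : ℂ)) := by
      conv_lhs => rw [hPsum, map_sum]
      apply Finset.sum_congr rfl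
      intro μ _
      rw [MvPolynomial.eval_monomial, MvPolynomial.eval_monomial, one_mul]
    rw [← h1, hP1]
  -- rational descent
  obtain ⟨z, hz0, hz1⟩ := exists_int_solution
    (ι := ↥s) (E := ↥(intLattice N' 2) × ℕ)
    (fun e μ => m μ.1 e.1 e.2)
    (fun μ => MvPolynomial.eval a (MvPolynomial.monomial μ.1 (1 : ℂ)))
    (fun μ => P.coeff μ.1)
    (by
      rintro ⟨b, n⟩
      rw [Finset.sum_coe_sort s (fun μ => P.coeff μ * ((m μ b n : ℤ) : ℂ))]
      have h1 := congrArg (fun D : Module.End ℂ (CuspForm (Gamma0 N') 2) => qCoeffLin n (D b.1)) hrel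
      simp only [LinearMap.sum_apply, LinearMap.smul_apply, map_sum, map_smul, LinearMap.zero_apply,
        map_zero, smul_eq_mul, qCoeffLin_apply] at h1
      rw [← h1]
      exact Finset.sum_congr rfl fun μ _ => by rw [hm μ b n])
    (by
      rw [Finset.sum_coe_sort s
        (fun μ => P.coeff μ * MvPolynomial.eval a (MvPolynomial.monomial μ (1 : ℂ))), hval]
      exact one_ne_zero)
  refine ⟨∑ μ : ↥s, MvPolynomial.monomial μ.1 (z μ), ?_, ?_⟩
  · -- vanishing at level `N'`
    apply Subtype.ext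
    rw [map_sum, AddSubmonoidClass.coe_finsetSum]
    have hmon : ∀ μ : ↥s, ((MvPolynomial.aeval (TfamH hS) (MvPolynomial.monomial μ.1 (z μ)) :
        heckeAlgebra N' 2 (↑S : Set ℕ)) : Module.End ℂ (CuspForm (Gamma0 N') 2)) =
        z μ • ((MH μ.1 : heckeAlgebra N' 2 (↑S : Set ℕ)) :
          Module.End ℂ (CuspForm (Gamma0 N') 2)) := by
      intro μ
      have : (MvPolynomial.monomial μ.1 (z μ) : MvPolynomial (PrimeIdx S) ℤ) =
          z μ • MvPolynomial.monomial μ.1 (1 : ℤ) := by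
        rw [MvPolynomial.smul_monomial, smul_eq_mul, mul_one]
      rw [this, map_zsmul, hMH]
      rfl
    rw [Finset.sum_congr rfl fun μ _ => hmon μ]
    apply LinearMap.ext_on (Fermat.Agent.S23.result N')
    intro b hb
    rw [ZeroMemClass.coe_zero, LinearMap.zero_apply]
    apply Fermat.Agent.S49.eq_zero_of_qCoeff_eq_zero
    intro n
    have h1 := hz0 (⟨b, hb⟩, n)
    have h2 : ((∑ μ : ↥s, z μ * m μ.1 ⟨b, hb⟩ n : ℤ) : ℂ) = 0 := by rw [h1]; simp
    rw [← qCoeffLin_apply, LinearMap.sum_apply, map_sum, ← h2]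
    push_cast
    apply Finset.sum_congr rfl
    intro μ _
    rw [LinearMap.smul_apply, qCoeffLin_apply, Fermat.Agent.S49.qCoeff_zsmul]
    exact congrArg _ (hm μ.1 ⟨b, hb⟩ n)
  · -- non-vanishing at the eigenvalues of `g`
    rw [map_sum]
    convert hz1 using 1
    apply Finset.sum_congr rfl
    intro μ _
    rw [MvPolynomial.aeval_monomial, MvPolynomial.eval_monomial, one_mul, eq_intCast]

/-- The old-killer has nonzero image under every eigencharacter of `g` on the Hecke algebra of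
level `M`. -/
theorem chi_aeval_ne_zero {M : ℕ} [NeZero M] {g : CuspForm (Gamma0 M) 2} (S : Finset ℕ)
    (hMS : ∀ q : ℕ, q.Prime → q ∣ M → q ∈ S)
    (χ : heckeAlgebra M 2 (↑S : Set ℕ) →+* ℂ)
    (hχ : ∀ i : PrimeIdx S, χ (TfamH hMS i) = qCoeff g i.1)
    (P : MvPolynomial (PrimeIdx S) ℤ)
    (hP : MvPolynomial.aeval (fun i : PrimeIdx S => qCoeff g i.1) P ≠ 0) :
    χ (MvPolynomial.aeval (TfamH hMS) P) ≠ 0 := by
  have h1 : χ (MvPolynomial.aeval (TfamH hMS) P) =
      MvPolynomial.aeval (fun i : PrimeIdx S => qCoeff g i.1) P := by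
    have := MvPolynomial.comp_aeval_apply (TfamH hMS) (χ.toIntAlgHom) P
    simp only [RingHom.toIntAlgHom_apply] at this
    have hfun : (fun i : PrimeIdx S => χ (TfamH hMS i)) = fun i : PrimeIdx S => qCoeff g i.1 :=
      funext hχ
    rw [this, hfun]
  rw [h1]
  exact hP

/-- **Packaged form for S35**: for a newform `g` of level `M`, a proper divisor `N'` of `M`, a finite
set `S` containing the primes of `M`, and a ring homomorphism `χ` on the Hecke algebra of level `M`
with `χ (T_ℓ) = a_ℓ (g)`: an integer polynomial `P` in the `T_ℓ`, `ℓ ∉ S`, which vanishes in the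
Hecke algebra of level `N'` and with `χ (P (T_ℓ)) ≠ 0` at level `M`. -/
theorem exists_oldKiller_chi {M N' : ℕ} [NeZero M] [NeZero N'] (hN'M : N' ∣ M) (hne : N' ≠ M)
    {g : CuspForm (Gamma0 M) 2} (hg : g.IsNewform) (S : Finset ℕ)
    (hMS : ∀ q : ℕ, q.Prime → q ∣ M → q ∈ S)
    (χ : heckeAlgebra M 2 (↑S : Set ℕ) →+* ℂ)
    (hχ : ∀ (ℓ : ℕ) (hℓ : ℓ.Prime) (hℓM : ¬ ℓ ∣ M) (hℓS : ℓ ∉ (↑S : Set ℕ)),
      χ (heckeAlgebra.T hℓ hℓM hℓS) = qCoeff g ℓ) :
    ∃ P : MvPolynomial (PrimeIdx S) ℤ,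
      MvPolynomial.aeval
        (TfamH (N' := N') (S := S) fun q hq h => hMS q hq (h.trans hN'M)) P = 0 ∧
      χ (MvPolynomial.aeval (TfamH hMS) P) ≠ 0 := by
  obtain ⟨P, hP0, hP1⟩ := exists_oldKiller hN'M hne hg S
    (fun q hq h => hMS q hq (h.trans hN'M))
  exact ⟨P, hP0, chi_aeval_ne_zero S hMS χ (fun i => hχ _ _ _ _) P hP1⟩

end Fermat.Agent.GK.New
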