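/-
GATE-K / S35 branch, input (t) in its FINAL form (helper24).

`GK/New/OldKiller.lean` gives, for a newform `g` of level `M` and a proper divisor `N'` of `M`, an
integer polynomial `P` in the `T_ℓ` (`ℓ ∉ S`) with `P (T^{N'}) = 0` in `heckeAlgebra N' 2 S` and
`χ (P (T^M)) ≠ 0`.  Here we wire it to helper17's `kumHecke` (the action of `heckeAlgebra M 2 S`
on `Kum_m (F_M)`) and helper86's Eichler–Shimura commutation trick (`TEnd_comp_of_gal_comm`):

* `kumHecke_aeval_dies` : for EVERY Galois-equivariant `ZMod m`-linear map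
  `f : Kum_m (F_M) → Kum_m (F_{N'})` (e.g. the degeneracy norms `α_*`, `β_* = α_* ∘ W`) and every
  `P` with `P (T^{N'}) = 0`:  `f (P (T^M) · x) = 0`;
* `exists_oldKiller_dies` : the packaged (t) of helper82's route (board 2231), in the exact
  normalisation `kumHeckeN M S lam n` of helper17's `ss35Gate_of_end`:
  `∃ t, chig t ≠ 0 ∧ ∀ n, ∀ f Galois-equivariant, ∀ x, f (kumHeckeN M S lam n t x) = 0`.
-/
import Mathlib
import Fermat.Agent.GK.New.OldKiller
import Fermat.Agent.GK.New.Intertwine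
import Fermat.Agent.GK.Tate.KumHecke
import Fermat.Agent.GK.UQ.ESComm

set_option autoImplicit false

noncomputable section

namespace Fermat.Agent.GK.New

open CuspForm ModularFormClass CongruenceSubgroup
open Fermat.Agent.GJ Fermat.Agent.GJ.KumGroup Fermat.Agent.GJ.Kum.KumType
open Fermat.Agent.GK.Tate.KumHecke Fermat.Agent.GK.UQ

local notation "GQ'" => (AlgebraicClosure ℚ ≃ₐ[ℚ] AlgebraicClosure ℚ)

section Dies

variable {M N' : ℕ} [NeZero M] [NeZero N'] (S : Finset ℕ) (m : ℕ) [NeZero m] {ζ : ℂ}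

/-- `kumHecke` on the generator `T_ℓ`, `ℓ ∉ S`, is helper86's `kumTl`. -/
theorem kumHecke_TfamH (hζ : IsPrimitiveRoot ζ m)
    (hMS : ∀ q : ℕ, q.Prime → q ∣ M → q ∈ S) (i : PrimeIdx S) :
    kumHecke M (↑S : Set ℕ) m hζ (TfamH hMS i) = kumTl M m i.2.1 (PrimeIdx.not_dvd hMS i) := by
  exact kumHecke_T M (↑S : Set ℕ) m hζ i.2.1 (PrimeIdx.not_dvd hMS i) _ _ _

/-- **P(T^{N'}) = 0 ⟹ P(T^M) dies under every Galois-equivariant map to level `N'`.** -/
theorem kumHecke_aeval_dies (hζ : IsPrimitiveRoot ζ m)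
    (hMS : ∀ q : ℕ, q.Prime → q ∣ M → q ∈ S) (hN'S : ∀ q : ℕ, q.Prime → q ∣ N' → q ∈ S)
    (hmS : ∀ q : ℕ, q.Prime → q ∣ m → q ∈ S)
    (f : Additive (Kum Kb (FK M) m) →ₗ[ZMod m] Additive (Kum Kb (FK N') m))
    (hf : ∀ (σ : GQ') x, f (gal M m σ x) = gal N' m σ (f x))
    (P : MvPolynomial (PrimeIdx S) ℤ)
    (hP : MvPolynomial.aeval (TfamH (N' := N') (S := S) hN'S) P = 0)
    (x : Additive (Kum Kb (FK M) m)) :
    f (kumHecke M (↑S : Set ℕ) m hζ (MvPolynomial.aeval (TfamH hMS) P) x) = 0 := by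
  have hm : 0 < m := Nat.pos_of_ne_zero (NeZero.ne m)
  -- the two actions as ring homs into `AddMonoid.End`
  let toAdd : ∀ (L : ℕ) [NeZero L],
      Module.End (ZMod m) (Additive (Kum Kb (FK L) m)) →+*
        AddMonoid.End (Additive (Kum Kb (FK L) m)) := fun L _ =>
    { toFun := fun E => E.toAddMonoidHom
      map_one' := rfl
      map_mul' := fun _ _ => rfl
      map_zero' := rfl
      map_add' := fun _ _ => rfl }
  have key := aeval_intertwine_eq_zero'
    ((toAdd M).comp (kumHecke M (↑S : Set ℕ) m hζ))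
    ((toAdd N').comp (kumHecke N' (↑S : Set ℕ) m hζ))
    f.toAddMonoidHom (TfamH hMS) (TfamH (N' := N') (S := S) hN'S) ?_ P hP x
  · exact key
  · intro i y
    have hnd : ∀ {L : ℕ}, (∀ q : ℕ, q.Prime → q ∣ L → q ∈ S) → ¬ i.1 ∣ L * m := by
      intro L hLS h
      rcases (Nat.Prime.dvd_mul i.2.1).mp h with h | h
      · exact i.2.2 (hLS _ i.2.1 h)
      · exact i.2.2 (hmS _ i.2.1 h)
    show f (kumHecke M (↑S : Set ℕ) m hζ (TfamH hMS i) y)
      = kumHecke N' (↑S : Set ℕ) m hζ (TfamH hN'S i) (f y)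
    rw [kumHecke_TfamH S m hζ hMS i, kumHecke_TfamH S m hζ hN'S i]
    exact TEnd_comp_of_gal_comm M N' m hm i.2.1 (hnd hMS) (hnd hN'S) f hf y

end Dies

section Packaged

open Fermat.Agent.GK.Tate.S35Top

/-- **Input (t) of the S35 gate, packaged**: for a newform `g` of level `M`, a proper divisor `N'`
of `M`, `S ∋ lam` containing the primes of `M`, and `chig` as in the frozen S35: a Hecke operator
`t` with `chig t ≠ 0` which, on every `Kum_{lamⁿ} (F_M)`, dies under EVERY Galois-equivariant linear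
map to `Kum_{lamⁿ} (F_{N'})`. -/
theorem exists_oldKiller_dies {M N' : ℕ} [NeZero M] [NeZero N'] (hN'M : N' ∣ M) (hne : N' ≠ M)
    {g : CuspForm (Gamma0 M) 2} (hg : g.IsNewform) (lam : ℕ) [Fact lam.Prime] (S : Finset ℕ)
    (chig : heckeAlgebra M 2 (↑S : Set ℕ) →+* ℂ)
    (hchig : ∀ (ℓ : ℕ) (hℓ : ℓ.Prime) (hℓM : ¬ ℓ ∣ M) (hℓS : ℓ ∉ (↑S : Set ℕ)),
      chig (heckeAlgebra.T hℓ hℓM hℓS) = qCoeff g ℓ)
    (hlamS : lam ∈ S) (hMS : ∀ q : ℕ, q.Prime → q ∣ M → q ∈ S) :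
    ∃ t : heckeAlgebra M 2 (↑S : Set ℕ), chig t ≠ 0 ∧
      ∀ (n : ℕ)
        (f : Additive (Kum Kb (FK M) (lam ^ n)) →ₗ[ZMod (lam ^ n)]
          Additive (Kum Kb (FK N') (lam ^ n))),
        (∀ (σ : GQ') x, f (gal M (lam ^ n) σ x) = gal N' (lam ^ n) σ (f x)) →
          ∀ x, f (kumHeckeN M S lam n t x) = 0 := by
  obtain ⟨P, hP0, hP1⟩ := exists_oldKiller_chi hN'M hne hg S hMS chig hchig
  refine ⟨MvPolynomial.aeval (TfamH hMS) P, hP1, fun n f hf x => ?_⟩
  have hlam : lam.Prime := Fact.out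
  have : NeZero (lam ^ n) := ⟨pow_ne_zero n hlam.ne_zero⟩
  refine kumHecke_aeval_dies S (lam ^ n) _ hMS (fun q hq h => hMS q hq (h.trans hN'M)) ?_ f hf P
    hP0 x
  intro q hq h
  have : q = lam := (Nat.prime_dvd_prime_iff_eq hq hlam).mp (hq.dvd_of_dvd_pow h)
  exact this ▸ hlamS

end Packaged

end Fermat.Agent.GK.New
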