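/-
GATE-K / K6c complement (helper24), Mathlib only: an additive map intertwining the generators of two
commutative ring actions intertwines every integer polynomial in the generators.  Used with the
old-killer `P` of `GK/New/OldKiller.lean`: if `f : X → Y` (e.g. a degeneracy norm
`Kum (F_M) → Kum (F_{M/q})`) satisfies `f (T_ℓ^M x) = T_ℓ^{M/q} (f x)` for all `ℓ ∉ S`, then
`f (P (T^M) x) = P (T^{M/q}) (f x) = 0`.
-/
import Mathlib

set_option autoImplicit false

namespace Fermat.Agent.GK.New

variable {σ : Type*} {A B : Type*} [CommRing A] [CommRing B]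
  {X Y : Type*} [AddCommGroup X] [AddCommGroup Y]

theorem AddMonoid.End.mul_apply' {Z : Type*} [AddCommGroup Z] (u v : AddMonoid.End Z) (z : Z) :
    (u * v) z = u (v z) := rfl

theorem AddMonoid.End.add_apply' {Z : Type*} [AddCommGroup Z] (u v : AddMonoid.End Z) (z : Z) :
    (u + v) z = u z + v z := rfl

theorem AddMonoid.End.zero_apply' {Z : Type*} [AddCommGroup Z] (z : Z) :
    (0 : AddMonoid.End Z) z = 0 := rfl

/-- `Module.End ℤ` form. -/
theorem aeval_intertwine (actA : A →+* Module.End ℤ X) (actB : B →+* Module.End ℤ Y) (f : X →+ Y)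
    (a : σ → A) (b : σ → B) (h : ∀ i x, f (actA (a i) x) = actB (b i) (f x))
    (P : MvPolynomial σ ℤ) (x : X) :
    f (actA (MvPolynomial.aeval a P) x) = actB (MvPolynomial.aeval b P) (f x) := by
  induction P using MvPolynomial.induction_on generalizing x with
  | C z =>
    rw [MvPolynomial.aeval_C, MvPolynomial.aeval_C, eq_intCast, eq_intCast, map_intCast,
      map_intCast]
    simp [Module.End.intCast_apply]
  | add p q hp hq =>
    rw [map_add, map_add, map_add, map_add, LinearMap.add_apply, LinearMap.add_apply, map_add,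
      hp, hq]
  | mul_X p i hp =>
    rw [map_mul, map_mul, map_mul, map_mul, MvPolynomial.aeval_X, MvPolynomial.aeval_X,
      Module.End.mul_apply, Module.End.mul_apply, hp, h]

/-- the vanishing corollary -/
theorem aeval_intertwine_eq_zero (actA : A →+* Module.End ℤ X) (actB : B →+* Module.End ℤ Y)
    (f : X →+ Y) (a : σ → A) (b : σ → B) (h : ∀ i x, f (actA (a i) x) = actB (b i) (f x))
    (P : MvPolynomial σ ℤ) (hP : MvPolynomial.aeval b P = 0) (x : X) :
    f (actA (MvPolynomial.aeval a P) x) = 0 := by
  rw [aeval_intertwine actA actB f a b h P x, hP, map_zero, LinearMap.zero_apply]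

/-- `AddMonoid.End` form. -/
theorem aeval_intertwine' (actA : A →+* AddMonoid.End X) (actB : B →+* AddMonoid.End Y)
    (f : X →+ Y) (a : σ → A) (b : σ → B) (h : ∀ i x, f (actA (a i) x) = actB (b i) (f x))
    (P : MvPolynomial σ ℤ) (x : X) :
    f (actA (MvPolynomial.aeval a P) x) = actB (MvPolynomial.aeval b P) (f x) := by
  induction P using MvPolynomial.induction_on generalizing x with
  | C z =>
    rw [MvPolynomial.aeval_C, MvPolynomial.aeval_C, eq_intCast, eq_intCast, map_intCast,
      map_intCast]
    simp
  | add p q hp hq =>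
    rw [map_add, map_add, map_add, map_add, AddMonoid.End.add_apply', AddMonoid.End.add_apply',
      map_add, hp, hq]
  | mul_X p i hp =>
    rw [map_mul, map_mul, map_mul, map_mul, MvPolynomial.aeval_X, MvPolynomial.aeval_X,
      AddMonoid.End.mul_apply', AddMonoid.End.mul_apply', hp, h]

/-- the vanishing corollary, `AddMonoid.End` form -/
theorem aeval_intertwine_eq_zero' (actA : A →+* AddMonoid.End X) (actB : B →+* AddMonoid.End Y)
    (f : X →+ Y) (a : σ → A) (b : σ → B) (h : ∀ i x, f (actA (a i) x) = actB (b i) (f x))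
    (P : MvPolynomial σ ℤ) (hP : MvPolynomial.aeval b P = 0) (x : X) :
    f (actA (MvPolynomial.aeval a P) x) = 0 := by
  rw [aeval_intertwine' actA actB f a b h P x, hP, map_zero, AddMonoid.End.zero_apply']

end Fermat.Agent.GK.New
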